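/-
GATE-E (S59 pre-work) / node GE7-DETQUAD (helper21).

**Quadratic Frobenius relation + residually non-scalar image ⟹ cyclotomic determinant and
Frobenius characteristic polynomials** — no Weil pairing.

`T` a Noetherian local ring with `p ∈ 𝔪`, `ρ : GaloisRepAdic T`, `B ∋ p` a finite set of primes,
`t : ℕ → T`.  Suppose

* `hquad` : `ρ(τ)² - t_ℓ ρ(τ) + ℓ = 0` for every Frobenius lift `τ` at a prime `ℓ ∉ B`;
* `hns`   : some `ρ(σ₀)` is not a scalar modulo `𝔪`.

Then `ρ.DetIsCyclotomic p` (the frozen predicate) and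
`charpoly ρ(τ) = X² - t_ℓ X + ℓ` for every Frobenius lift `τ` at `ℓ ∉ B`.

(A) Local algebra: for `f ∈ End V`, `V` free of rank two over a local ring, `f² - t f + d = 0` and
    `f` not residually scalar give `tr f = t` and `det f = d` (Cayley–Hamilton and subtraction:
    `(tr f - t) f = det f - d`; a unit entry of `f - f₁₁` kills `tr f - t`).
(B) Chebotarev (FL1, `GJ/FrobLiftMain`) on `cycMod p n × redRho ρ k × redRho ρ 1`: every `σ` is, on
    these three finite quotients, a power `τ ^ j` of a Frobenius lift at some `ℓ ∉ B`.  If `σ` is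
    not residually scalar neither is `τ`, so `det ρ(τ) = ℓ` by (A) and
    `det ρ(σ) ≡ ℓ ^ j ≡ χ(σ)` modulo `(p ^ n) + 𝔪 ^ k`; Krull.
(C) The residually scalar `σ` form a proper subgroup: for such `σ`, `σ₀ σ` and `σ₀` are not
    residually scalar, and `det ρ(σ₀)` is a unit.
(D) Now `det ρ(τ) = ℓ` exactly for all Frobenius lifts, and `(tr ρ(τ) - t_ℓ) ρ(τ) = 0` gives the
    trace.
-/
import Fermat.Agent.GS.DetCyc

set_option autoImplicit false

open Polynomial Module IsLocalRing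
open Fermat.Agent.Common_helper32 Fermat.Agent.GJ.Tate Fermat.Agent.GK.Tate

namespace Fermat.Agent.GE7.DetQuad

open Carayol

/-! ### (A) local algebra -/

section LocalAlg

variable {T : Type*} [CommRing T] [IsLocalRing T] {V : Type*} [AddCommGroup V] [Module T V]
  [Module.Free T V] [Module.Finite T V]

/-- `f` is a scalar modulo the maximal ideal (matrix form in the chosen basis; the ideal is
spelled `𝔪 ^ 1` to match `redRho ρ 1`). -/
def ResScalar (f : Module.End T V) : Prop :=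
  ∃ c : T, redMat (maximalIdeal T ^ 1) V (f - c • (1 : Module.End T V)) = 0

omit [IsLocalRing T] in
theorem redMat_eq_zero_iff (I : Ideal T) (g : Module.End T V) :
    redMat I V g = 0 ↔
      ∀ i j, (Free.chooseBasis T V).repr (g (Free.chooseBasis T V j)) i ∈ I := by
  constructor
  · intro h i j
    have := congrFun (congrFun h i) j
    rw [redMat_apply] at this
    exact Ideal.Quotient.eq_zero_iff_mem.mp this
  · intro h
    ext i j
    rw [redMat_apply]
    exact Ideal.Quotient.eq_zero_iff_mem.mpr (h i j)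

/-- `x • f = y • 1` with `f` not residually scalar forces `x = 0`. -/
theorem eq_zero_of_smul_eq_smul_one (f : Module.End T V) (hns : ¬ ResScalar f) (x y : T)
    (h : x • f = y • (1 : Module.End T V)) : x = 0 := by
  classical
  by_contra hx
  apply hns
  set b := Free.chooseBasis T V with hb
  have hI : maximalIdeal T ^ 1 = maximalIdeal T := pow_one _
  -- the entries
  have hent : ∀ i j, x * b.repr (f (b j)) i = y * (if i = j then 1 else 0) := by
    intro i j
    have h1 := congrArg (fun g : Module.End T V => b.repr (g (b j)) i) h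
    simp only [LinearMap.smul_apply, Module.End.one_apply, map_smul, Finsupp.smul_apply,
      smul_eq_mul, Basis.repr_self, Finsupp.single_apply] at h1
    rw [h1]
    by_cases hij : i = j
    · rw [if_pos hij, if_pos hij.symm]
    · rw [if_neg hij, if_neg (Ne.symm hij)]
  have hmem : ∀ a : T, x * a = 0 → a ∈ maximalIdeal T := by
    intro a ha
    by_contra hna
    have hu : IsUnit a := by
      by_contra hnu
      exact hna ((mem_maximalIdeal a).mpr hnu)
    exact hx (hu.mul_left_eq_zero.mp ha)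
  have hoff : ∀ i j, i ≠ j → b.repr (f (b j)) i ∈ maximalIdeal T := by
    intro i j hij
    apply hmem
    rw [hent i j, if_neg hij, mul_zero]
  have hdiag : ∀ i j, b.repr (f (b i)) i - b.repr (f (b j)) j ∈ maximalIdeal T := by
    intro i j
    apply hmem
    rw [mul_sub, hent i i, hent j j, if_pos rfl, if_pos rfl, sub_self]
  by_cases hne : Nonempty (Free.ChooseBasisIndex T V)
  · obtain ⟨i₀⟩ := hne
    refine ⟨b.repr (f (b i₀)) i₀, ?_⟩
    rw [redMat_eq_zero_iff, hI]
    intro i j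
    simp only [LinearMap.sub_apply, LinearMap.smul_apply, Module.End.one_apply, map_sub, map_smul,
      Finsupp.sub_apply, Finsupp.smul_apply, smul_eq_mul, Basis.repr_self, Finsupp.single_apply]
    rw [← hb]
    by_cases hij : j = i
    · subst hij
      rw [if_pos rfl, mul_one]
      exact hdiag j i₀
    · rw [if_neg hij, mul_zero, sub_zero]
      exact hoff i j (Ne.symm hij)
  · refine ⟨0, ?_⟩
    rw [redMat_eq_zero_iff]
    intro i
    exact absurd ⟨i⟩ hne

variable (hV : finrank T V = 2)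

include hV in
/-- Cayley–Hamilton in rank two. -/
theorem sq_sub_trace_add_det (f : Module.End T V) :
    f * f - LinearMap.trace T V f • f + LinearMap.det f • (1 : Module.End T V) = 0 := by
  have h1 := LinearMap.aeval_self_charpoly f
  rw [charpoly_eq_of_finrank_two hV f] at h1
  rw [map_add, map_sub, map_mul, map_pow, aeval_X, aeval_C, aeval_C] at h1
  rw [Algebra.algebraMap_eq_smul_one, Algebra.algebraMap_eq_smul_one, smul_mul_assoc, one_mul,
    pow_two] at h1
  exact h1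

include hV in
theorem smul_one_eq_zero (y : T) (h : y • (1 : Module.End T V) = 0) : y = 0 := by
  classical
  have hcard : Fintype.card (Free.ChooseBasisIndex T V) = 2 := by
    rw [← finrank_eq_card_chooseBasisIndex, hV]
  have hne : Nonempty (Free.ChooseBasisIndex T V) :=
    Fintype.card_pos_iff.mp (by rw [hcard]; norm_num)
  obtain ⟨i⟩ := hne
  have h1 := congrArg (fun g : Module.End T V =>
    (Free.chooseBasis T V).repr (g (Free.chooseBasis T V i)) i) h
  simpa using h1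

include hV in
/-- **(A)**: a quadratic relation for a residually non-scalar endomorphism in rank two determines
trace and determinant. -/
theorem trace_det_of_quadratic (f : Module.End T V) (t d : T)
    (hq : f * f - t • f + d • (1 : Module.End T V) = 0) (hns : ¬ ResScalar f) :
    LinearMap.trace T V f = t ∧ LinearMap.det f = d := by
  have hch := sq_sub_trace_add_det hV f
  have h : (LinearMap.trace T V f - t) • f = (LinearMap.det f - d) • (1 : Module.End T V) := by
    have e : (LinearMap.trace T V f - t) • f - (LinearMap.det f - d) • (1 : Module.End T V) =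
        (f * f - t • f + d • (1 : Module.End T V)) -
          (f * f - LinearMap.trace T V f • f + LinearMap.det f • (1 : Module.End T V)) := by
      module
    rw [← sub_eq_zero, e, hq, hch, sub_zero]
  have hx := eq_zero_of_smul_eq_smul_one f hns _ _ h
  rw [hx, zero_smul] at h
  have hy := smul_one_eq_zero hV _ h.symm
  exact ⟨sub_eq_zero.mp hx, sub_eq_zero.mp hy⟩

/-- residual scalarity passes to powers, in the form delivered by Chebotarev -/
theorem resScalar_of_pow (f g : Module.End T V) (j : ℕ)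
    (h : redMat (maximalIdeal T ^ 1) V g = redMat (maximalIdeal T ^ 1) V f ^ j)
    (hf : ResScalar f) : ResScalar g := by
  obtain ⟨c, hc⟩ := hf
  refine ⟨c ^ j, ?_⟩
  rw [map_sub, sub_eq_zero] at hc
  rw [map_sub, sub_eq_zero, h, hc, ← map_pow, _root_.smul_pow, one_pow]

/-- a unit scalar multiple: if `f` is residually scalar with invertible `f`, and `g * f` is
residually scalar, then so is `g`. -/
theorem resScalar_of_mul (f f' g : Module.End T V) (hff' : f * f' = 1)
    (hf : ResScalar f') (hgf : ResScalar (g * f)) : ResScalar g := by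
  obtain ⟨c, hc⟩ := hf
  obtain ⟨e, he⟩ := hgf
  refine ⟨e * c, ?_⟩
  rw [map_sub, sub_eq_zero] at hc he ⊢
  have : g = (g * f) * f' := by rw [mul_assoc, hff', mul_one]
  rw [this, map_mul, he, hc, ← map_mul, smul_mul_smul_comm, one_mul]

/-- module form of residual scalarity implies the matrix form -/
theorem resScalar_of_forall (f : Module.End T V) (c : T)
    (h : ∀ v, f v - c • v ∈ maximalIdeal T • (⊤ : Submodule T V)) : ResScalar f := by
  refine ⟨c, ?_⟩
  rw [redMat_eq_zero_iff, pow_one]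
  intro i j
  exact repr_mem_of_mem_smul_top _ _ (by simpa using h (Free.chooseBasis T V j)) i

/-- the matrix form of residual scalarity implies the module form -/
theorem forall_of_resScalar (f : Module.End T V) (hf : ResScalar f) :
    ∃ c : T, ∀ v, f v - c • v ∈ maximalIdeal T • (⊤ : Submodule T V) := by
  classical
  obtain ⟨c, hc⟩ := hf
  refine ⟨c, fun v => ?_⟩
  rw [redMat_eq_zero_iff, pow_one] at hc
  set b := Free.chooseBasis T V with hb
  set g : Module.End T V := f - c • (1 : Module.End T V) with hg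
  have hgv : f v - c • v = g v := by simp [hg]
  rw [hgv]
  have hbj : ∀ j, g (b j) ∈ maximalIdeal T • (⊤ : Submodule T V) := by
    intro j
    rw [← b.sum_repr (g (b j))]
    exact Submodule.sum_mem _ fun i _ => Submodule.smul_mem_smul (hc i j) Submodule.mem_top
  rw [← b.sum_repr v, map_sum]
  refine Submodule.sum_mem _ fun j _ => ?_
  rw [map_smul]
  exact Submodule.smul_mem _ _ (hbj j)

include hV in
/-- the inverse of a residually scalar automorphism is residually scalar -/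
theorem resScalar_inv (f f' : Module.End T V) (hff' : f * f' = 1) (hf : ResScalar f) :
    ResScalar f' := by
  classical
  obtain ⟨c, hc⟩ := hf
  rw [map_sub, sub_eq_zero] at hc
  have hcard : Fintype.card (Free.ChooseBasisIndex T V) = 2 := by
    rw [← finrank_eq_card_chooseBasisIndex, hV]
  have hne : Nonempty (Free.ChooseBasisIndex T V) :=
    Fintype.card_pos_iff.mp (by rw [hcard]; norm_num)
  have hI : maximalIdeal T ^ 1 ≠ ⊤ := by
    rw [pow_one]; exact (maximalIdeal.isMaximal T).ne_top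
  have : Nontrivial (T ⧸ maximalIdeal T ^ 1) := Ideal.Quotient.nontrivial_iff.mpr hI
  have hcu : IsUnit c := by
    by_contra hnu
    have hcm : c ∈ maximalIdeal T := (mem_maximalIdeal c).mpr hnu
    have h0 : redMat (maximalIdeal T ^ 1) V (c • (1 : Module.End T V)) = 0 := by
      rw [redMat_eq_zero_iff, pow_one]
      intro i j
      simp only [LinearMap.smul_apply, Module.End.one_apply, map_smul, Finsupp.smul_apply,
        smul_eq_mul]
      exact Ideal.mul_mem_right _ _ hcm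
    have h1 : (1 : Matrix (Free.ChooseBasisIndex T V) (Free.ChooseBasisIndex T V)
        (T ⧸ maximalIdeal T ^ 1)) = 0 := by
      rw [← map_one (redMat (maximalIdeal T ^ 1) V), ← hff', map_mul, hc, h0, zero_mul]
    exact one_ne_zero h1
  obtain ⟨u, rfl⟩ := hcu
  refine ⟨((u⁻¹ : Tˣ) : T), ?_⟩
  rw [map_sub, sub_eq_zero]
  calc redMat (maximalIdeal T ^ 1) V f'
      = redMat (maximalIdeal T ^ 1) V ((((u⁻¹ : Tˣ) : T) • (1 : Module.End T V)) *
          (((u : T) • (1 : Module.End T V)))) * redMat (maximalIdeal T ^ 1) V f' := by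
        rw [smul_mul_smul_comm, one_mul, Units.inv_mul, one_smul, map_one, one_mul]
    _ = redMat (maximalIdeal T ^ 1) V (((u⁻¹ : Tˣ) : T) • (1 : Module.End T V)) *
          (redMat (maximalIdeal T ^ 1) V f * redMat (maximalIdeal T ^ 1) V f') := by
        rw [map_mul, hc, mul_assoc]
    _ = redMat (maximalIdeal T ^ 1) V (((u⁻¹ : Tˣ) : T) • (1 : Module.End T V)) := by
        rw [← map_mul, hff', map_one, mul_one]

end LocalAlg

/-! ### (B)–(D) the density argument -/

section Main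

variable {p : ℕ} [Fact p.Prime] {T : Type} [CommRing T] [IsLocalRing T] (ρ : GaloisRepAdic T)
  (B : Finset ℕ) (hpB : p ∈ B) (t : ℕ → T)
  (hquad : ∀ ℓ : ℕ, ℓ.Prime → ℓ ∉ B → ∀ A : ValuationSubring Qb, A.LiesOverPrime ℓ →
    ∀ τ : GQ, A.IsFrobeniusAt τ ℓ →
      ρ.ρ τ * ρ.ρ τ - t ℓ • ρ.ρ τ + (ℓ : T) • (1 : Module.End T ρ.V) = 0)

include hpB hquad in
/-- (B): `det ρ(σ) ≡ χ(σ) mod p ^ n` for residually non-scalar `σ`. -/
theorem det_sub_mem_of_not_resScalar [IsNoetherianRing T] (n : ℕ) (σ : GQ)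
    (hσ : ¬ ResScalar (ρ.ρ σ)) (a : ℕ)
    (hcyc : ((cycMod p n σ : (ZMod (p ^ n))ˣ) : ZMod (p ^ n)) = (a : ZMod (p ^ n))) :
    LinearMap.det (ρ.ρ σ) - (a : T) ∈ Ideal.span {((p ^ n : ℕ) : T)} := by
  refine Fermat.Agent.GS.DetCyc.mem_of_forall_mem_sup_pow _ _ (fun k => ?_)
  obtain ⟨ℓ, A, τ, j, hℓ, hℓB, hA, hτ, hpow⟩ :=
    Fermat.Agent.GJ.FrobLift.exists_isFrobeniusAt_pow'
      ((cycMod p n).prod ((redRho ρ k).prod (redRho ρ 1)))
      (factorsThroughFiniteLevel_prod (cycMod_level p n)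
        (factorsThroughFiniteLevel_prod (redRho_factors ρ k) (redRho_factors ρ 1))) B σ
  rw [MonoidHom.prod_apply, MonoidHom.prod_apply, MonoidHom.prod_apply, MonoidHom.prod_apply,
    Prod.pow_mk, Prod.pow_mk, Prod.mk.injEq, Prod.mk.injEq] at hpow
  obtain ⟨h2, h3, h4⟩ := hpow
  have hℓp : ℓ ≠ p := fun h => hℓB (h ▸ hpB)
  have hτns : ¬ ResScalar (ρ.ρ τ) := fun h =>
    hσ (resScalar_of_pow (ρ.ρ τ) (ρ.ρ σ) j h4 h)
  obtain ⟨-, hdet⟩ := trace_det_of_quadratic ρ.finrank_eq (ρ.ρ τ) (t ℓ) (ℓ : T)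
    (hquad ℓ hℓ hℓB A hA τ hτ) hτns
  have hcycl : ((ℓ ^ j : ℕ) : ZMod (p ^ n)) = (a : ZMod (p ^ n)) := by
    have h5 : ((cycMod p n σ : (ZMod (p ^ n))ˣ) : ZMod (p ^ n)) =
        ((cycMod p n τ ^ j : (ZMod (p ^ n))ˣ) : ZMod (p ^ n)) := congrArg Units.val h2
    rw [hcyc, Units.val_pow_eq_pow_val, cycMod_frob p n A ℓ hℓ hA hℓp τ hτ] at h5
    rw [Nat.cast_pow, ← h5]
  have hlj : ((ℓ ^ j : ℕ) : T) - (a : T) ∈ Ideal.span {((p ^ n : ℕ) : T)} :=
    Fermat.Agent.GS.DetCyc.natCast_sub_mem_span_of_zmod_eq hcycl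
  rw [redRho_apply, redRho_apply] at h3
  have t1 := congrArg Matrix.det h3
  rw [Matrix.det_pow, det_redMat, det_redMat, hdet, ← map_pow] at t1
  have hd : LinearMap.det (ρ.ρ σ) - ((ℓ : T)) ^ j ∈ maximalIdeal T ^ k :=
    Ideal.Quotient.eq.mp t1
  have e : LinearMap.det (ρ.ρ σ) - (a : T) =
      (((ℓ ^ j : ℕ) : T) - (a : T)) + (LinearMap.det (ρ.ρ σ) - ((ℓ : T)) ^ j) := by
    rw [Nat.cast_pow]
    ring
  rw [e]
  exact Submodule.add_mem_sup hlj hd

include hpB hquad in
/-- (C): `det ρ(σ) ≡ χ(σ) mod p ^ n` for every `σ`. -/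
theorem det_sub_mem [IsNoetherianRing T] (hns : ∃ σ₀ : GQ, ¬ ResScalar (ρ.ρ σ₀)) (n : ℕ) (σ : GQ)
    (a : ℕ)
    (hcyc : ((cycMod p n σ : (ZMod (p ^ n))ˣ) : ZMod (p ^ n)) = (a : ZMod (p ^ n))) :
    LinearMap.det (ρ.ρ σ) - (a : T) ∈ Ideal.span {((p ^ n : ℕ) : T)} := by
  by_cases hσ : ResScalar (ρ.ρ σ)
  swap
  · exact det_sub_mem_of_not_resScalar ρ B hpB t hquad n σ hσ a hcyc
  obtain ⟨σ₀, hσ₀⟩ := hns
  have hinv : ρ.ρ σ * ρ.ρ σ⁻¹ = 1 := by rw [← map_mul, mul_inv_cancel, map_one]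
  have h1 : ¬ ResScalar (ρ.ρ (σ₀ * σ)) := by
    intro h
    apply hσ₀
    rw [map_mul] at h
    exact resScalar_of_mul (ρ.ρ σ) (ρ.ρ σ⁻¹) (ρ.ρ σ₀) hinv
      (resScalar_inv ρ.finrank_eq _ _ hinv hσ) h
  have : NeZero (p ^ n) := ⟨pow_ne_zero _ (Fact.out : p.Prime).ne_zero⟩
  set a₀ : ℕ := ((cycMod p n σ₀ : (ZMod (p ^ n))ˣ) : ZMod (p ^ n)).val with ha₀def
  have ha₀ : ((cycMod p n σ₀ : (ZMod (p ^ n))ˣ) : ZMod (p ^ n)) = (a₀ : ZMod (p ^ n)) :=
    (ZMod.natCast_zmod_val _).symm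
  have e0 := det_sub_mem_of_not_resScalar ρ B hpB t hquad n σ₀ hσ₀ a₀ ha₀
  have e1 := det_sub_mem_of_not_resScalar ρ B hpB t hquad n (σ₀ * σ) h1 (a₀ * a)
    (by rw [map_mul, Units.val_mul, ha₀, hcyc, Nat.cast_mul])
  rw [map_mul, map_mul] at e1
  have hu : IsUnit (LinearMap.det (ρ.ρ σ₀)) := by
    refine IsUnit.of_mul_eq_one (LinearMap.det (ρ.ρ σ₀⁻¹)) ?_
    rw [← map_mul, ← map_mul, mul_inv_cancel, map_one, map_one]
  have e2 : LinearMap.det (ρ.ρ σ₀) * (LinearMap.det (ρ.ρ σ) - (a : T)) =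
      (LinearMap.det (ρ.ρ σ₀) * LinearMap.det (ρ.ρ σ) - ((a₀ * a : ℕ) : T)) -
        (a : T) * (LinearMap.det (ρ.ρ σ₀) - (a₀ : T)) := by
    push_cast
    ring
  have e3 : LinearMap.det (ρ.ρ σ₀) * (LinearMap.det (ρ.ρ σ) - (a : T)) ∈
      Ideal.span {((p ^ n : ℕ) : T)} := by
    rw [e2]
    exact Ideal.sub_mem _ e1 (Ideal.mul_mem_left _ _ e0)
  exact (Ideal.unit_mul_mem_iff_mem _ hu).mp e3

include hpB hquad in
/-- **the frozen `DetIsCyclotomic` from the quadratic Frobenius relation**, matrix form of the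
non-scalarity hypothesis. -/
theorem detIsCyclotomic_of_quadratic' [IsNoetherianRing T] (hpT : (p : T) ∈ maximalIdeal T)
    (hns : ∃ σ₀ : GQ, ¬ ResScalar (ρ.ρ σ₀)) : ρ.DetIsCyclotomic p :=
  ⟨hpT, fun n σ a h => det_sub_mem ρ B hpB t hquad hns n σ a
    (Fermat.Agent.GS.DetCyc.cycMod_eq_of_forall p n σ a h)⟩

include hpB hquad in
/-- **`DetIsCyclotomic` from the quadratic Frobenius relation** when the residual image is not
contained in the scalars. -/
theorem detIsCyclotomic_of_quadratic [IsNoetherianRing T] (hpT : (p : T) ∈ maximalIdeal T)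
    (hns : ∃ σ₀ : GQ, ¬ ∃ c : T, ∀ v : ρ.V,
      ρ.ρ σ₀ v - c • v ∈ maximalIdeal T • (⊤ : Submodule T ρ.V)) : ρ.DetIsCyclotomic p := by
  obtain ⟨σ₀, hσ₀⟩ := hns
  exact detIsCyclotomic_of_quadratic' ρ B hpB t hquad hpT
    ⟨σ₀, fun h => hσ₀ (forall_of_resScalar _ h)⟩

include hpB hquad in
/-- (D) the determinant at a Frobenius lift. -/
theorem det_frob_of_quadratic' [IsNoetherianRing T] (hpT : (p : T) ∈ maximalIdeal T)
    (hns : ∃ σ₀ : GQ, ¬ ResScalar (ρ.ρ σ₀)) {ℓ : ℕ} (hℓ : ℓ.Prime) (hℓB : ℓ ∉ B)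
    (A : ValuationSubring Qb) (hA : A.LiesOverPrime ℓ) (τ : GQ) (hτ : A.IsFrobeniusAt τ ℓ) :
    LinearMap.det (ρ.ρ τ) = (ℓ : T) := by
  have hℓp : ℓ ≠ p := fun h => hℓB (h ▸ hpB)
  rw [← sub_eq_zero]
  have hmem : LinearMap.det (ρ.ρ τ) - (ℓ : T) ∈ (⨅ n : ℕ, maximalIdeal T ^ n) := by
    rw [Ideal.mem_iInf]
    intro n
    have h1 := det_sub_mem ρ B hpB t hquad hns n τ ℓ (cycMod_frob p n A ℓ hℓ hA hℓp τ hτ)
    refine (Ideal.span_le.mpr ?_) h1
    intro x hx
    rw [Set.mem_singleton_iff] at hx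
    rw [hx, Nat.cast_pow]
    exact Ideal.pow_mem_pow hpT n
  rw [Ideal.iInf_pow_eq_bot_of_isLocalRing _ (maximalIdeal.isMaximal T).ne_top] at hmem
  exact hmem

include hpB hquad in
/-- **(D) the characteristic polynomial at every Frobenius lift**, matrix form of the
non-scalarity hypothesis. -/
theorem charpoly_frob_of_quadratic' [IsNoetherianRing T] (hpT : (p : T) ∈ maximalIdeal T)
    (hns : ∃ σ₀ : GQ, ¬ ResScalar (ρ.ρ σ₀)) {ℓ : ℕ} (hℓ : ℓ.Prime) (hℓB : ℓ ∉ B)
    (A : ValuationSubring Qb) (hA : A.LiesOverPrime ℓ) (τ : GQ) (hτ : A.IsFrobeniusAt τ ℓ) :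
    LinearMap.charpoly (ρ.ρ τ) = X ^ 2 - C (t ℓ) * X + C ((ℓ : T)) := by
  have hdet := det_frob_of_quadratic' ρ B hpB t hquad hpT hns hℓ hℓB A hA τ hτ
  have hch := sq_sub_trace_add_det ρ.finrank_eq (ρ.ρ τ)
  have hq := hquad ℓ hℓ hℓB A hA τ hτ
  have h : (LinearMap.trace T ρ.V (ρ.ρ τ) - t ℓ) • ρ.ρ τ = 0 := by
    rw [hdet] at hch
    have e : (LinearMap.trace T ρ.V (ρ.ρ τ) - t ℓ) • ρ.ρ τ =
        (ρ.ρ τ * ρ.ρ τ - t ℓ • ρ.ρ τ + (ℓ : T) • (1 : Module.End T ρ.V)) -
          (ρ.ρ τ * ρ.ρ τ - LinearMap.trace T ρ.V (ρ.ρ τ) • ρ.ρ τ +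
            (ℓ : T) • (1 : Module.End T ρ.V)) := by
      module
    rw [e, hq, hch, sub_zero]
  have h' : (LinearMap.trace T ρ.V (ρ.ρ τ) - t ℓ) • (1 : Module.End T ρ.V) = 0 := by
    have hinv : ρ.ρ τ * ρ.ρ τ⁻¹ = 1 := by rw [← map_mul, mul_inv_cancel, map_one]
    rw [← hinv, ← smul_mul_assoc, h, zero_mul]
  have htr := sub_eq_zero.mp (smul_one_eq_zero ρ.finrank_eq _ h')
  rw [charpoly_eq_of_finrank_two ρ.finrank_eq (ρ.ρ τ), htr, hdet]

include hpB hquad in
/-- **the characteristic polynomial at every Frobenius lift from the quadratic relation**, when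
the residual image is not contained in the scalars: `tr ρ(Frob_ℓ) = t_ℓ`, `det ρ(Frob_ℓ) = ℓ`. -/
theorem charpoly_frob_of_quadratic [IsNoetherianRing T] (hpT : (p : T) ∈ maximalIdeal T)
    (hns : ∃ σ₀ : GQ, ¬ ∃ c : T, ∀ v : ρ.V,
      ρ.ρ σ₀ v - c • v ∈ maximalIdeal T • (⊤ : Submodule T ρ.V))
    {ℓ : ℕ} (hℓ : ℓ.Prime) (hℓB : ℓ ∉ B)
    (A : ValuationSubring Qb) (hA : A.LiesOverPrime ℓ) (τ : GQ) (hτ : A.IsFrobeniusAt τ ℓ) :
    LinearMap.charpoly (ρ.ρ τ) = X ^ 2 - C (t ℓ) * X + C ((ℓ : T)) := by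
  obtain ⟨σ₀, hσ₀⟩ := hns
  exact charpoly_frob_of_quadratic' ρ B hpB t hquad hpT
    ⟨σ₀, fun h => hσ₀ (forall_of_resScalar _ h)⟩ hℓ hℓB A hA τ hτ

end Main

end Fermat.Agent.GE7.DetQuad
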