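/-
GATE-E (S59 pre-work) / node GE7-DETQUAD, file 2 (helper21): the plug of
`DetQuad.detIsCyclotomic_of_quadratic` / `charpoly_frob_of_quadratic` on helper64's abstract
`p`-adic Tate module `TateAbs.tateRep E p hcard hlev : GaloisRepAdic ℤ_[p]`.

Inputs (all levelwise, in the pointwise shapes of `GE/Top/ECAssembly`):

* `hfrob` : `τ τ P - a_ℓ τ P + ℓ P = 0` on every `E[p^n]` for a Frobenius lift `τ` at `ℓ ∉ B`
            (`= GE/Top/ECFinal.frobRel` for `E = W(ℚ̄)`);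
* `hns`   : some `σ₀` does not act on `E[p]` through a scalar (e.g. `E[p]` irreducible).

Outputs: the frozen `(tateRep …).DetIsCyclotomic p` and
`charpoly ρ(Frob_ℓ) = X² - a_ℓ X + ℓ` — no Weil pairing.
-/
import Fermat.Agent.GE7.DetQuad.Main
import Fermat.Agent.GE7.TateAbs.Gal

set_option autoImplicit false

open Polynomial Module IsLocalRing PadicInt
open Fermat.Agent.Common_helper32 Fermat.Agent.GE7.TateAbs Fermat.Agent.GK.Tate

namespace Fermat.Agent.GE7.DetQuad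

section Plug

variable (E : Type) [AddCommGroup E] [DistribMulAction GQ E] (p : ℕ) [hp : Fact p.Prime]
  (hcard : ∀ n, Nat.card (lvl E p n) = p ^ (2 * n)) (hlev : LevelFinite E p)

/-- the levelwise quadratic relation, as an identity of endomorphisms of `T_p`. -/
theorem tateRep_quadratic (a l : ℤ) (τ : GQ)
    (h : ∀ n, ∀ P ∈ lvl E p n, τ • τ • P - a • τ • P + l • P = 0) :
    (tateRep E p hcard hlev).ρ τ * (tateRep E p hcard hlev).ρ τ -
      (a : ℤ_[p]) • (tateRep E p hcard hlev).ρ τ +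
      (l : ℤ_[p]) • (1 : Module.End ℤ_[p] (tateRep E p hcard hlev).V) = 0 :=
  LinearMap.ext fun x => actRho_quadratic (G := GQ) (E := E) (p := p) a l h x

include hcard in
/-- if `ρ(σ₀)` is a scalar modulo `𝔪` then `σ₀` acts on `E[p]` through a natural number. -/
theorem exists_scalar_of_resScalar (σ₀ : GQ)
    (h : ∃ c : ℤ_[p], ∀ v : (tateRep E p hcard hlev).V,
      (tateRep E p hcard hlev).ρ σ₀ v - c • v ∈
        maximalIdeal ℤ_[p] • (⊤ : Submodule ℤ_[p] (tateRep E p hcard hlev).V)) :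
    ∃ c : ℕ, ∀ P ∈ lvl E p 1, σ₀ • P = c • P := by
  obtain ⟨c, hc⟩ := h
  refine ⟨c.appr 1, fun P hP => ?_⟩
  obtain ⟨x, hx⟩ := proj_surjective_of_card hcard 1 ⟨P, hP⟩
  have hxP : val x 1 = P := congrArg Subtype.val hx
  have h1 := hc x
  have h1' : (galRho E p σ₀ x - c • x : Tp E p) ∈
      (maximalIdeal ℤ_[p] ^ 1) • (⊤ : Submodule ℤ_[p] (Tp E p)) := by
    rw [pow_one]; exact h1
  rw [mem_pow_smul_top_iff, val_sub, sub_eq_zero, val_smul, hxP] at h1'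
  rw [← h1', ← hxP]
  rfl

variable (B : Finset ℕ) (hpB : p ∈ B) (a : ℕ → ℤ)
  (hfrob : ∀ ℓ : ℕ, ℓ.Prime → ℓ ∉ B → ∀ A : ValuationSubring Qb, A.LiesOverPrime ℓ →
    ∀ τ : GQ, A.IsFrobeniusAt τ ℓ → ∀ n, ∀ P ∈ lvl E p n,
      τ • τ • P - a ℓ • τ • P + (ℓ : ℤ) • P = 0)
  (hns : ∃ σ₀ : GQ, ¬ ∃ c : ℕ, ∀ P ∈ lvl E p 1, σ₀ • P = c • P)

include hpB hfrob hns in
/-- **`det T_p(E) = χ_cyc`** (frozen predicate) from the levelwise quadratic Frobenius relation,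
when `G_ℚ` does not act on `E[p]` through scalars. -/
theorem tateRep_detIsCyclotomic : (tateRep E p hcard hlev).DetIsCyclotomic p := by
  obtain ⟨σ₀, hσ₀⟩ := hns
  refine detIsCyclotomic_of_quadratic (tateRep E p hcard hlev) B hpB (fun ℓ => ((a ℓ : ℤ) : ℤ_[p]))
    (fun ℓ hℓ hℓB A hA τ hτ => ?_) ?_
    ⟨σ₀, fun h => hσ₀ (exists_scalar_of_resScalar E p hcard hlev σ₀ h)⟩
  · have := tateRep_quadratic E p hcard hlev (a ℓ) (ℓ : ℤ) τ (hfrob ℓ hℓ hℓB A hA τ hτ)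
    rwa [Int.cast_natCast] at this
  · exact (mem_maximalIdeal _).mpr PadicInt.p_nonunit

include hpB hfrob hns in
/-- **`charpoly ρ(Frob_ℓ) = X² - a_ℓ X + ℓ` on `T_p(E)`** from the levelwise quadratic relation,
when `G_ℚ` does not act on `E[p]` through scalars: `tr ρ(Frob_ℓ) = a_ℓ`, `det ρ(Frob_ℓ) = ℓ`. -/
theorem tateRep_charpoly_frob {ℓ : ℕ} (hℓ : ℓ.Prime) (hℓB : ℓ ∉ B)
    (A : ValuationSubring Qb) (hA : A.LiesOverPrime ℓ) (τ : GQ) (hτ : A.IsFrobeniusAt τ ℓ) :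
    LinearMap.charpoly ((tateRep E p hcard hlev).ρ τ) =
      X ^ 2 - C ((a ℓ : ℤ) : ℤ_[p]) * X + C ((ℓ : ℕ) : ℤ_[p]) := by
  obtain ⟨σ₀, hσ₀⟩ := hns
  refine charpoly_frob_of_quadratic (tateRep E p hcard hlev) B hpB
    (fun ℓ => ((a ℓ : ℤ) : ℤ_[p])) (fun ℓ hℓ hℓB A hA τ hτ => ?_) ?_
    ⟨σ₀, fun h => hσ₀ (exists_scalar_of_resScalar E p hcard hlev σ₀ h)⟩ hℓ hℓB A hA τ hτ
  · have := tateRep_quadratic E p hcard hlev (a ℓ) (ℓ : ℤ) τ (hfrob ℓ hℓ hℓB A hA τ hτ)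
    rwa [Int.cast_natCast] at this
  · exact (mem_maximalIdeal _).mpr PadicInt.p_nonunit

include hpB hfrob hns in
/-- trace and determinant of Frobenius on `T_p(E)`. -/
theorem tateRep_trace_det_frob {ℓ : ℕ} (hℓ : ℓ.Prime) (hℓB : ℓ ∉ B)
    (A : ValuationSubring Qb) (hA : A.LiesOverPrime ℓ) (τ : GQ) (hτ : A.IsFrobeniusAt τ ℓ) :
    (tateRep E p hcard hlev).trace τ = ((a ℓ : ℤ) : ℤ_[p]) ∧
      LinearMap.det ((tateRep E p hcard hlev).ρ τ) = ((ℓ : ℕ) : ℤ_[p]) := by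
  have h := tateRep_charpoly_frob E p hcard hlev B hpB a hfrob hns hℓ hℓB A hA τ hτ
  rw [charpoly_eq_of_finrank_two (tateRep E p hcard hlev).finrank_eq] at h
  have h0 := congrArg (fun P : ℤ_[p][X] => P.coeff 0) h
  have h1 := congrArg (fun P : ℤ_[p][X] => P.coeff 1) h
  simp only [coeff_add, coeff_sub, coeff_X_pow, coeff_C_zero, mul_coeff_zero, coeff_X_zero,
    mul_zero, sub_zero, coeff_C_mul, coeff_X_one, mul_one, coeff_C_succ] at h0 h1
  constructor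
  · have : -(LinearMap.trace ℤ_[p] (tateRep E p hcard hlev).V ((tateRep E p hcard hlev).ρ τ)) =
        -(((a ℓ : ℤ) : ℤ_[p])) := by simpa using h1
    exact neg_injective this
  · simpa using h0

end Plug

end Fermat.Agent.GE7.DetQuad
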