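/-
GATE-E (S59 pre-work) / node GE7-DETQUAD, file 3 (helper21): the Tate module of `W(ℚ̄)`.

For `W/ℤ` with `Δ ≠ 0`, `p` prime, and ANY proofs `hcard`, `hlev` of the two inputs of helper64's
`TateAbs.tateRep ((EQb W).Point) p hcard hlev : GaloisRepAdic ℤ_[p]`:
if the frozen `GaloisRepIsIrreducible ℚ W_ℚ p` holds (or merely: `G_ℚ` does not act on `W[p]`
through scalars), then

* `tateRepW_detIsCyclotomic` : the frozen `DetIsCyclotomic p`;
* `tateRepW_charpoly_frob`   : `charpoly ρ(Frob_ℓ) = X² - a_ℓ(W) X + ℓ` for `ℓ ∤ p Δ`,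
  `a_ℓ(W) = W.apOfModel ℓ` (the prelude's point-count definition);
* `tateRepW_trace_det_frob`  : `tr ρ(Frob_ℓ) = a_ℓ(W)`, `det ρ(Frob_ℓ) = ℓ`.

Inputs: `GE/Top/ECFinal.frobRel` (the quadratic relation on torsion points) only — no Weil pairing.
-/
import Fermat.Agent.GE7.DetQuad.Plug
import Fermat.Agent.GE.Top.ECFinal
import Fermat.Prelude.Def_FLTPrelim_GaloisRep

set_option autoImplicit false

open Polynomial Module IsLocalRing PadicInt
open Fermat.Agent.Common_helper32 Fermat.Agent.GE7.TateAbs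
open scoped WeierstrassCurve.Affine

namespace Fermat.Agent.GE7.DetQuad

open WeierstrassCurve WeierstrassCurve.Affine.Point Fermat.Agent.GE.ECAssembly

section W

variable (W : WeierstrassCurve ℤ) (hΔ : W.Δ ≠ 0) (p : ℕ) [hp : Fact p.Prime]

include hΔ in
/-- an irreducible `W[p]` is not acted on through scalars. -/
theorem exists_not_scalar_of_irreducible
    (hirr : GaloisRepIsIrreducible (K := Qb) ℚ (W.map (Int.castRingHom ℚ)).toAffine p) :
    ∃ σ₀ : GQ, ¬ ∃ c : ℕ, ∀ P ∈ lvl (EQb W).Point p 1, σ₀ • P = c • P := by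
  by_contra hcon
  push Not at hcon
  obtain ⟨hnt, hirr⟩ := hirr
  have hfin : Finite (TN W p) := finite_TN W hΔ p hp.out.one_lt.le
  have hcard : Nat.card (TN W p) = p ^ 2 :=
    Fermat.Agent.GE.Tors.card_torsionBy (eqb_Δ_ne_zero W hΔ) p hp.out.one_lt.le
  obtain ⟨e, he⟩ := exists_ne (0 : TN W p)
  set N : Submodule (ZMod p) (TN W p) := Submodule.span (ZMod p) {e} with hN
  have hstab : IsGaloisStable ℚ N := by
    intro σ x hx
    obtain ⟨c, hc⟩ := hcon σ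
    have hxl : (x : (EQb W).Point) ∈ lvl (EQb W).Point p 1 := by
      rw [mem_lvl, pow_one]; exact nsmul_TN W p x
    have h1 : σ • x = c • x := Subtype.ext (hc _ hxl)
    rw [h1]
    exact nsmul_mem hx c
  have heN : e ∈ N := Submodule.mem_span_singleton_self e
  rcases hirr N hstab with h | h
  · rw [h, Submodule.mem_bot] at heN
    exact he heN
  · have h1 : finrank (ZMod p) N = 1 := finrank_span_singleton he
    rw [h, finrank_top] at h1
    have h2 : Nat.card (TN W p) = Nat.card (ZMod p) ^ finrank (ZMod p) (TN W p) :=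
      Module.natCard_eq_pow_finrank
    rw [h1, Nat.card_zmod, pow_one, hcard] at h2
    have := hp.out.one_lt
    nlinarith

variable (hcard : ∀ n, Nat.card (lvl (EQb W).Point p n) = p ^ (2 * n))
  (hlev : LevelFinite (EQb W).Point p)

include hΔ in
/-- the levelwise quadratic relation for `W(ℚ̄)` in the shape of `Plug.lean`. -/
theorem hfrobW : ∀ ℓ : ℕ, ℓ.Prime → ℓ ∉ insert p W.Δ.natAbs.primeFactors →
    ∀ A : ValuationSubring Qb, A.LiesOverPrime ℓ →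
    ∀ τ : GQ, A.IsFrobeniusAt τ ℓ → ∀ n, ∀ P ∈ lvl (EQb W).Point p n,
      τ • τ • P - W.apOfModel ℓ • τ • P + (ℓ : ℤ) • P = 0 := by
  intro ℓ hℓ hℓB A hA τ hτ n P hP
  obtain ⟨hℓp, hℓΔ⟩ := good_of_not_mem W hΔ hℓ hℓB
  exact Fermat.Agent.GE.ECFinal.frobRel W hp.out n ℓ hℓ hℓp hℓΔ A hA τ hτ P (mem_lvl.mp hP)

include hΔ in
/-- **`det T_p(W) = χ_cyc`** (frozen predicate), from irreducibility of `W[p]`. -/
theorem tateRepW_detIsCyclotomic
    (hirr : GaloisRepIsIrreducible (K := Qb) ℚ (W.map (Int.castRingHom ℚ)).toAffine p) :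
    (tateRep (EQb W).Point p hcard hlev).DetIsCyclotomic p :=
  tateRep_detIsCyclotomic (EQb W).Point p hcard hlev (insert p W.Δ.natAbs.primeFactors)
    (Finset.mem_insert_self _ _) (fun ℓ => W.apOfModel ℓ) (hfrobW W hΔ p)
    (exists_not_scalar_of_irreducible W hΔ p hirr)

include hΔ in
/-- **`charpoly ρ(Frob_ℓ) = X² - a_ℓ(W) X + ℓ` on `T_p(W)`** for `ℓ ∤ p Δ`, from irreducibility
of `W[p]`. -/
theorem tateRepW_charpoly_frob
    (hirr : GaloisRepIsIrreducible (K := Qb) ℚ (W.map (Int.castRingHom ℚ)).toAffine p)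
    {ℓ : ℕ} (hℓ : ℓ.Prime) (hℓp : ℓ ≠ p) (hℓΔ : ¬ (ℓ : ℤ) ∣ W.Δ)
    (A : ValuationSubring Qb) (hA : A.LiesOverPrime ℓ) (τ : GQ) (hτ : A.IsFrobeniusAt τ ℓ) :
    LinearMap.charpoly ((tateRep (EQb W).Point p hcard hlev).ρ τ) =
      X ^ 2 - C ((W.apOfModel ℓ : ℤ) : ℤ_[p]) * X + C ((ℓ : ℕ) : ℤ_[p]) := by
  refine tateRep_charpoly_frob (EQb W).Point p hcard hlev (insert p W.Δ.natAbs.primeFactors)
    (Finset.mem_insert_self _ _) (fun ℓ => W.apOfModel ℓ) (hfrobW W hΔ p)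
    (exists_not_scalar_of_irreducible W hΔ p hirr) hℓ ?_ A hA τ hτ
  rw [Finset.mem_insert, not_or, Nat.mem_primeFactors]
  exact ⟨hℓp, fun h => hℓΔ (Int.natCast_dvd.mpr h.2.1)⟩

include hΔ in
/-- `tr ρ(Frob_ℓ) = a_ℓ(W)` and `det ρ(Frob_ℓ) = ℓ` on `T_p(W)`. -/
theorem tateRepW_trace_det_frob
    (hirr : GaloisRepIsIrreducible (K := Qb) ℚ (W.map (Int.castRingHom ℚ)).toAffine p)
    {ℓ : ℕ} (hℓ : ℓ.Prime) (hℓp : ℓ ≠ p) (hℓΔ : ¬ (ℓ : ℤ) ∣ W.Δ)
    (A : ValuationSubring Qb) (hA : A.LiesOverPrime ℓ) (τ : GQ) (hτ : A.IsFrobeniusAt τ ℓ) :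
    (tateRep (EQb W).Point p hcard hlev).trace τ = ((W.apOfModel ℓ : ℤ) : ℤ_[p]) ∧
      LinearMap.det ((tateRep (EQb W).Point p hcard hlev).ρ τ) = ((ℓ : ℕ) : ℤ_[p]) := by
  refine tateRep_trace_det_frob (EQb W).Point p hcard hlev (insert p W.Δ.natAbs.primeFactors)
    (Finset.mem_insert_self _ _) (fun ℓ => W.apOfModel ℓ) (hfrobW W hΔ p)
    (exists_not_scalar_of_irreducible W hΔ p hirr) hℓ ?_ A hA τ hτ
  rw [Finset.mem_insert, not_or, Nat.mem_primeFactors]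
  exact ⟨hℓp, fun h => hℓΔ (Int.natCast_dvd.mpr h.2.1)⟩

end W

end Fermat.Agent.GE7.DetQuad
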